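import Mathlib

/-!
# Lifting inertia elements from a quotient of a profinite group

Let a profinite group `G` act continuously on a (discrete) commutative ring `B`, let `H` be a
closed normal subgroup, `B' = B ^ H` the ring of `H`-invariants, on which `G ⧸ H` acts, `Q` a
prime ideal of `B` and `P' = Q ∩ B'`. Then every element of the inertia group of `P'` in
`G ⧸ H` is the class of an element of the inertia group of `Q` in `G`
(`exists_mem_inertia_mk_eq`).
-/

set_option autoImplicit false

namespace Fermat.Agent.Lib.InertiaLift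

open scoped Pointwise

section

variable {A B : Type*} [CommRing A] [CommRing B] [Algebra A B]
variable {G : Type*} [Group G] [MulSemiringAction G B] [SMulCommClass G A B]

/-- The action of the class of `g` on the ring of `H`-invariants is the action of `g`. -/
theorem coe_mk_smul (H : Subgroup G) [H.Normal] (g : G) (x : FixedPoints.subalgebra A B H) :
    (((g : G ⧸ H) • x : FixedPoints.subalgebra A B H) : B) = g • (x : B) := rfl

/-- Contraction to the ring of `H`-invariants is equivariant. -/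
theorem under_smul (H : Subgroup G) [H.Normal] (g : G) (Q : Ideal B) :
    (g • Q).under (FixedPoints.subalgebra A B H) =
      (g : G ⧸ H) • Q.under (FixedPoints.subalgebra A B H) := by
  ext x
  rw [Ideal.mem_pointwise_smul_iff_inv_smul_mem, Ideal.under_def, Ideal.mem_comap,
    Ideal.under_def, Ideal.mem_comap, Ideal.mem_pointwise_smul_iff_inv_smul_mem]
  rfl

variable [TopologicalSpace G] [CompactSpace G] [TotallyDisconnectedSpace G] [IsTopologicalGroup G]
variable [TopologicalSpace B] [DiscreteTopology B] [ContinuousSMul G B]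

/-- Every element of the inertia group of `Q ∩ B ^ H` in `G ⧸ H` lifts to an element of the
inertia group of `Q` in `G`. -/
theorem exists_mem_inertia_mk_eq (H : Subgroup G) [H.Normal] (hH : IsClosed (H : Set G))
    (Q : Ideal B) [Q.IsPrime] (γ : G ⧸ H)
    (hγ : γ ∈ (Q.under (FixedPoints.subalgebra A B H)).inertia (G ⧸ H)) :
    ∃ σ : G, σ ∈ Q.inertia G ∧ (σ : G ⧸ H) = γ := by
  classical
  have : CompactSpace H := isCompact_iff_compactSpace.mp hH.isCompact
  have : Algebra.IsInvariant (FixedPoints.subalgebra A B H) B H := ⟨fun b hb => ⟨⟨b, hb⟩, rfl⟩⟩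
  obtain ⟨g₀, rfl⟩ := QuotientGroup.mk_surjective γ
  have hstab : (g₀ : G ⧸ H) • (Q.under (FixedPoints.subalgebra A B H)) =
      Q.under (FixedPoints.subalgebra A B H) := Ideal.inertia_le_stabilizer _ hγ
  have hunder : (g₀ • Q).under (FixedPoints.subalgebra A B H) =
      Q.under (FixedPoints.subalgebra A B H) := by
    rw [under_smul, hstab]
  obtain ⟨h, hh⟩ := Algebra.IsInvariant.exists_smul_of_under_eq_of_profinite
    (A := FixedPoints.subalgebra A B H) (G := H) Q (g₀ • Q) hunder.symm
  have hh' : g₀ • Q = (h : G) • Q := hh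
  -- the corrected lift
  set g₁ : G := (h : G)⁻¹ * g₀ with hg₁
  have hg₁Q : g₁ • Q = Q := by
    rw [hg₁, mul_smul, hh', inv_smul_smul]
  have hg₁x : ∀ x : FixedPoints.subalgebra A B H,
      g₁ • (x : B) = (((g₀ : G ⧸ H) • x : FixedPoints.subalgebra A B H) : B) := by
    intro x
    rw [hg₁, mul_smul, coe_mk_smul]
    exact ((g₀ : G ⧸ H) • x).2 (h⁻¹)
  have hg₁P : ∀ x : FixedPoints.subalgebra A B H, g₁ • (x : B) - (x : B) ∈ Q := by
    intro x
    rw [hg₁x]
    have := hγ x
    exact this
  -- the induced automorphism of the residue ring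
  let τ₀ : (B ⧸ Q) ≃ₐ[A ⧸ Q.under A] (B ⧸ Q) :=
    Ideal.Quotient.stabilizerHom Q (Q.under A) G ⟨g₁, hg₁Q⟩
  let τ : (B ⧸ Q) ≃ₐ[(FixedPoints.subalgebra A B H) ⧸ Q.under (FixedPoints.subalgebra A B H)]
      (B ⧸ Q) :=
    AlgEquiv.ofRingEquiv (f := τ₀.toRingEquiv) (by
      intro y
      obtain ⟨x, rfl⟩ := Ideal.Quotient.mk_surjective y
      show τ₀ (Ideal.Quotient.mk Q (x : B)) = Ideal.Quotient.mk Q (x : B)
      show Ideal.Quotient.mk Q (g₁ • (x : B)) = Ideal.Quotient.mk Q (x : B)
      rw [Ideal.Quotient.eq]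
      exact hg₁P x)
  obtain ⟨⟨h', hh'Q⟩, hτ⟩ := Ideal.Quotient.stabilizerHom_surjective_of_profinite
    (G := H) (Q.under (FixedPoints.subalgebra A B H)) Q τ
  have hh'Q' : (h' : G) • Q = Q := hh'Q
  have hτb : ∀ b : B, (h' : G) • b - g₁ • b ∈ Q := by
    intro b
    have h1 := DFunLike.congr_fun hτ (Ideal.Quotient.mk Q b)
    have h2 : Ideal.Quotient.mk Q ((h' : G) • b) = Ideal.Quotient.mk Q (g₁ • b) := h1
    rwa [Ideal.Quotient.eq] at h2
  refine ⟨(h' : G)⁻¹ * g₁, ?_, ?_⟩
  · intro b
    show ((h' : G)⁻¹ * g₁) • b - b ∈ Q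
    have h3 : (h' : G) • (((h' : G)⁻¹ * g₁) • b - b) ∈ (h' : G) • Q := by
      rw [hh'Q']
      have : (h' : G) • (((h' : G)⁻¹ * g₁) • b - b) = - ((h' : G) • b - g₁ • b) := by
        rw [smul_sub, mul_smul, smul_inv_smul]; ring
      rw [this]
      exact Q.neg_mem (hτb b)
    exact Ideal.smul_mem_pointwise_smul_iff.mp h3
  · have e1 : (((h' : G) : G) : G ⧸ H) = 1 := (QuotientGroup.eq_one_iff _).mpr h'.2
    have e2 : (((h : G) : G) : G ⧸ H) = 1 := (QuotientGroup.eq_one_iff _).mpr h.2
    rw [hg₁, QuotientGroup.mk_mul, QuotientGroup.mk_mul, QuotientGroup.mk_inv,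
      QuotientGroup.mk_inv, e1, e2, inv_one, one_mul, one_mul]

end

end Fermat.Agent.Lib.InertiaLift
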