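import Mathlib
import Fermat.Prelude.Def_FLTPrelim_Ramification

/-!
# From maximal ideals of the ring of algebraic integers to valuation subrings

Let `L` be an algebraic extension of `ℚ` and let `B` be the integral closure of `ℤ` in `L`.
For every maximal ideal `Q` of `B` there is a valuation subring `V` of `L` whose maximal ideal
meets `B` in `Q`; it lies over the prime number `ℓ` below `Q`, and the inertia group of `Q`
(in the sense of ideals) is contained in the inertia group of `V` (in the sense of valuation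
subrings).
-/

set_option autoImplicit false

namespace Fermat.Agent.Lib.InertiaPlace

open scoped Pointwise
open Polynomial

variable {L : Type*} [Field L] [Algebra ℚ L]

omit [Algebra ℚ L] in
/-- Elements of a valuation ring `V` of `L` containing the algebraic integers are fractions
`a / s` with `a, s` algebraic integers and `s` a unit of `V`. Inductive form. -/
theorem exists_den_aux (V : ValuationSubring L)
    (hv1 : ∀ b : integralClosure ℤ L, V.valuation (b : L) ≤ 1) (x : L) (hx : x ∈ V) :
    ∀ (n : ℕ) (p : Polynomial (integralClosure ℤ L)), p.natDegree ≤ n →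
      Polynomial.aeval x p = 0 →
      (∃ i, V.valuation ((p.coeff i : integralClosure ℤ L) : L) = 1) →
      ∃ s : integralClosure ℤ L, V.valuation (s : L) = 1 ∧
        ∃ a : integralClosure ℤ L, (a : L) = (s : L) * x := by
  have hxv : V.valuation x ≤ 1 := (V.valuation_le_one_iff x).mpr hx
  intro n
  induction n with
  | zero =>
    intro p hp hpx ⟨i, hi⟩
    exfalso
    rw [Nat.le_zero] at hp
    rw [Polynomial.eq_C_of_natDegree_eq_zero hp] at hpx
    simp only [aeval_C] at hpx
    have h0 : p.coeff 0 = 0 := by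
      apply Subtype.ext
      simpa using hpx
    have hp0 : p = 0 := by
      rw [Polynomial.eq_C_of_natDegree_eq_zero hp, h0, C_0]
    rw [hp0] at hi
    simp at hi
  | succ n ih =>
    intro p hp hpx ⟨i, hi⟩
    set a : integralClosure ℤ L := p.coeff (n + 1) with ha
    have hax : ∃ c : integralClosure ℤ L, (c : L) = (a : L) * x := by
      by_cases ha0 : a = 0
      · exact ⟨0, by rw [ha0]; simp⟩
      · have hdeg : p.natDegree = n + 1 :=
          le_antisymm hp (Polynomial.le_natDegree_of_ne_zero ha0)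
        have hlc : p.leadingCoeff = a := by
          rw [Polynomial.leadingCoeff, hdeg]
        have h1 : IsIntegral (integralClosure ℤ L) (p.leadingCoeff • x) :=
          isIntegral_leadingCoeff_smul p x hpx
        rw [hlc] at h1
        have h2 : IsIntegral ℤ (a • x) := isIntegral_trans _ h1
        exact ⟨⟨a • x, h2⟩, rfl⟩
    obtain ⟨c, hc⟩ := hax
    by_cases hva : V.valuation (a : L) = 1
    · exact ⟨a, hva, c, hc⟩
    · have hva' : V.valuation (a : L) < 1 := lt_of_le_of_ne (hv1 a) hva
      have hvc : V.valuation (c : L) < 1 := by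
        rw [hc, map_mul]
        calc V.valuation (a : L) * V.valuation x ≤ V.valuation (a : L) * 1 := by
              gcongr
          _ = V.valuation (a : L) := mul_one _
          _ < 1 := hva'
      set g : Polynomial (integralClosure ℤ L) :=
        p.erase (n + 1) + Polynomial.monomial n c with hg
      have hgdeg : g.natDegree ≤ n := by
        rw [Polynomial.natDegree_le_iff_coeff_eq_zero]
        intro N hN
        rw [hg, Polynomial.coeff_add, Polynomial.coeff_erase, Polynomial.coeff_monomial]
        have hN' : n ≠ N := hN.ne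
        rw [if_neg hN']
        by_cases hN1 : N = n + 1
        · rw [if_pos hN1]; simp
        · rw [if_neg hN1]
          have : p.natDegree < N := by omega
          rw [Polynomial.coeff_eq_zero_of_natDegree_lt this]; simp
      have hgx : Polynomial.aeval x g = 0 := by
        have hp' : p = p.erase (n + 1) + Polynomial.monomial (n + 1) a := by
          rw [ha, add_comm, Polynomial.monomial_add_erase]
        have h1 : Polynomial.aeval x (p.erase (n + 1)) = - ((a : L) * x ^ (n + 1)) := by
          have := hpx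
          rw [hp', map_add, Polynomial.aeval_monomial] at this
          rw [eq_neg_iff_add_eq_zero]
          exact this
        rw [hg, map_add, h1, Polynomial.aeval_monomial]
        show -((a : L) * x ^ (n + 1)) + (c : L) * x ^ n = 0
        rw [hc]; ring
      have hgi : V.valuation ((g.coeff i : integralClosure ℤ L) : L) = 1 := by
        have hi1 : i ≠ n + 1 := by
          rintro rfl
          exact hva hi
        rw [hg, Polynomial.coeff_add, Polynomial.coeff_erase, if_neg hi1,
          Polynomial.coeff_monomial]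
        by_cases hin : n = i
        · rw [if_pos hin]
          push_cast
          rw [Valuation.map_add_eq_of_lt_left _ (by rw [hi]; exact hvc), hi]
        · rw [if_neg hin, add_zero, hi]
      exact ih g hgdeg hgx ⟨i, hgi⟩

theorem exists_primitive_int_poly [Algebra.IsAlgebraic ℚ L] (x : L) :
    ∃ p : Polynomial ℤ, p.IsPrimitive ∧ Polynomial.aeval x p = 0 := by
  have hx : IsAlgebraic ℚ x := Algebra.IsAlgebraic.isAlgebraic x
  have hxZ : IsAlgebraic ℤ x := (IsFractionRing.isAlgebraic_iff ℤ ℚ L).mpr hx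
  obtain ⟨q, hq0, hqx⟩ := hxZ
  refine ⟨q.primPart, Polynomial.isPrimitive_primPart q, ?_⟩
  have h1 : q = Polynomial.C q.content * q.primPart := Polynomial.eq_C_content_mul_primPart q
  rw [h1, map_mul, Polynomial.aeval_C] at hqx
  have hc : (algebraMap ℤ L) q.content ≠ 0 := by
    have : q.content ≠ 0 := Polynomial.content_eq_zero_iff.not.mpr hq0
    have hchar : CharZero L := algebraRat.charZero L
    rw [eq_intCast]
    exact Int.cast_ne_zero.mpr this
  exact (mul_eq_zero.mp hqx).resolve_left hc

/-- Elements of a valuation ring `V` of `L` over `ℓ` are fractions `a / s` with `a, s` algebraic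
integers and `s` a unit of `V`. -/
theorem exists_den [Algebra.IsAlgebraic ℚ L] (V : ValuationSubring L)
    (hv1 : ∀ b : integralClosure ℤ L, V.valuation (b : L) ≤ 1) (ℓ : ℕ) (hℓ : ℓ.Prime)
    (hvℓ : ∀ m : ℤ, ¬ (ℓ : ℤ) ∣ m → V.valuation ((m : ℤ) : L) = 1)
    (x : L) (hx : x ∈ V) :
    ∃ s : integralClosure ℤ L, V.valuation (s : L) = 1 ∧
      ∃ a : integralClosure ℤ L, (a : L) = (s : L) * x := by
  obtain ⟨p₀, hprim, hp₀x⟩ := exists_primitive_int_poly x
  have hex : ∃ i, ¬ (ℓ : ℤ) ∣ p₀.coeff i := by
    by_contra hcon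
    have hcon' : ∀ i, (ℓ : ℤ) ∣ p₀.coeff i := fun i => by
      by_contra h
      exact hcon ⟨i, h⟩
    have hdvd : Polynomial.C (ℓ : ℤ) ∣ p₀ := (Polynomial.C_dvd_iff_dvd_coeff _ _).mpr hcon'
    have hunit : IsUnit (ℓ : ℤ) := hprim _ hdvd
    have := Int.isUnit_iff.mp hunit
    have h2 := hℓ.two_le
    omega
  obtain ⟨i, hi⟩ := hex
  refine exists_den_aux V hv1 x hx (p₀.map (algebraMap ℤ (integralClosure ℤ L))).natDegree
    (p₀.map (algebraMap ℤ (integralClosure ℤ L))) le_rfl ?_ ⟨i, ?_⟩
  · rw [Polynomial.aeval_map_algebraMap]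
    exact hp₀x
  · rw [Polynomial.coeff_map]
    have := hvℓ _ hi
    simpa using this

omit [Algebra ℚ L] in
/-- A maximal ideal of the ring of algebraic integers is the trace of the maximal ideal of a
valuation subring. -/
theorem exists_valuationSubring (Q : Ideal (integralClosure ℤ L)) (hQmax : Q.IsMaximal) :
    ∃ V : ValuationSubring L,
      (∀ b : integralClosure ℤ L, V.valuation (b : L) ≤ 1) ∧
      (∀ b : integralClosure ℤ L, b ∈ Q ↔ V.valuation (b : L) < 1) := by
  let f : (integralClosure ℤ L).toSubring →+* integralClosure ℤ L := RingHom.id _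
  have hQ' : Q.comap f ≠ ⊤ := by
    intro h
    have h1 : (1 : (integralClosure ℤ L).toSubring) ∈ Q.comap f := by rw [h]; trivial
    rw [Ideal.mem_comap, map_one] at h1
    exact hQmax.ne_top ((Ideal.eq_top_iff_one _).mpr h1)
  obtain ⟨V, hZV, hQV⟩ := Ideal.image_subset_nonunits_valuationSubring (Q.comap f) hQ'
  have hv1 : ∀ b : integralClosure ℤ L, V.valuation (b : L) ≤ 1 := fun b =>
    (V.valuation_le_one_iff _).mpr (hZV b.2)
  have hvQ : ∀ b : integralClosure ℤ L, b ∈ Q → V.valuation (b : L) < 1 := fun b hb =>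
    V.mem_nonunits_iff.mp (hQV ⟨⟨b.1, b.2⟩, hb, rfl⟩)
  refine ⟨V, hv1, fun b => ⟨hvQ b, fun hb => ?_⟩⟩
  by_contra hbQ
  obtain ⟨c, q, hq, hcq⟩ := hQmax.exists_inv hbQ
  have h1 : V.valuation ((q : integralClosure ℤ L) : L) < 1 := hvQ _ hq
  have h2 : V.valuation ((c : L) * (b : L)) < 1 := by
    rw [map_mul]
    calc V.valuation (c : L) * V.valuation (b : L) ≤ 1 * V.valuation (b : L) := by
          gcongr
          exact hv1 c
      _ = V.valuation (b : L) := one_mul _
      _ < 1 := hb
  have h3 : V.valuation (1 : L) < 1 := by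
    have : (1 : L) = (c : L) * (b : L) + ((q : integralClosure ℤ L) : L) := by
      have := congrArg Subtype.val hcq
      simpa using this.symm
    rw [this]
    exact lt_of_le_of_lt (Valuation.map_add _ _ _) (max_lt h2 h1)
  rw [map_one] at h3
  exact lt_irrefl _ h3

/-- Any element of the stabilizer of `Q` maps `V` into itself. -/
theorem stab_maps (V : ValuationSubring L) (Q : Ideal (integralClosure ℤ L))
    (hv1 : ∀ b : integralClosure ℤ L, V.valuation (b : L) ≤ 1)
    (hvQ : ∀ b : integralClosure ℤ L, b ∈ Q ↔ V.valuation (b : L) < 1)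
    (hden : ∀ x ∈ V, ∃ s : integralClosure ℤ L, V.valuation (s : L) = 1 ∧
      ∃ a : integralClosure ℤ L, (a : L) = (s : L) * x)
    (g : L ≃ₐ[ℚ] L) (hg : g • Q = Q) (x : L) (hx : x ∈ V) : g x ∈ V := by
  obtain ⟨s, hs, a, ha⟩ := hden x hx
  have hsQ : s ∉ Q := fun h => by
    have := (hvQ s).mp h
    rw [hs] at this
    exact lt_irrefl _ this
  have hgsQ : g • s ∉ Q := by
    intro h
    rw [← hg] at h
    exact hsQ (Ideal.smul_mem_pointwise_smul_iff.mp h)
  have hgs1 : V.valuation (g (s : L)) = 1 := by
    have h1 : V.valuation (((g • s : integralClosure ℤ L)) : L) ≤ 1 := hv1 _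
    have h2 : ¬ V.valuation (((g • s : integralClosure ℤ L)) : L) < 1 :=
      fun h => hgsQ ((hvQ _).mpr h)
    exact le_antisymm h1 (not_lt.mp h2)
  have hga : V.valuation (g (a : L)) ≤ 1 := hv1 (g • a)
  have hmul : g (a : L) = g (s : L) * g x := by rw [ha, map_mul]
  rw [← V.valuation_le_one_iff]
  have : V.valuation (g (a : L)) = V.valuation (g x) := by
    rw [hmul, map_mul, hgs1, one_mul]
  rw [← this]; exact hga

/-- **Dictionary.** A maximal ideal `Q` of the ring of algebraic integers of `L` containing the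
prime number `ℓ` gives a valuation subring of `L` lying over `ℓ` whose inertia group contains
the inertia group of `Q`. -/
theorem exists_place [Algebra.IsAlgebraic ℚ L] (Q : Ideal (integralClosure ℤ L))
    (hQmax : Q.IsMaximal) (ℓ : ℕ) (hℓ : ℓ.Prime)
    (hℓQ : algebraMap ℤ (integralClosure ℤ L) (ℓ : ℤ) ∈ Q) :
    ∃ V : ValuationSubring L, V.LiesOverPrime ℓ ∧
      Q.inertia (L ≃ₐ[ℚ] L) ≤ V.inertiaSubgroupIn ℚ := by
  obtain ⟨V, hv1, hvQ⟩ := exists_valuationSubring Q hQmax
  have hmemQ : ∀ m : ℤ, (algebraMap ℤ (integralClosure ℤ L) m) ∈ Q ↔ (ℓ : ℤ) ∣ m := by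
    intro m
    constructor
    · intro hm
      by_contra hdvd
      have hcop : IsCoprime (ℓ : ℤ) m :=
        (Nat.prime_iff_prime_int.mp hℓ).coprime_iff_not_dvd.mpr hdvd
      obtain ⟨u, v, huv⟩ := hcop
      have h1 : algebraMap ℤ (integralClosure ℤ L) (u * (ℓ : ℤ) + v * m) ∈ Q := by
        rw [map_add, map_mul, map_mul]
        exact Q.add_mem (Q.mul_mem_left _ hℓQ) (Q.mul_mem_left _ hm)
      rw [huv, map_one] at h1
      exact hQmax.ne_top ((Ideal.eq_top_iff_one _).mpr h1)
    · rintro ⟨k, rfl⟩
      rw [map_mul]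
      exact Q.mul_mem_right _ hℓQ
  have hvℓ : ∀ m : ℤ, ¬ (ℓ : ℤ) ∣ m → V.valuation ((m : ℤ) : L) = 1 := by
    intro m hm
    have h1 : V.valuation ((algebraMap ℤ (integralClosure ℤ L) m : integralClosure ℤ L) : L)
        ≤ 1 := hv1 _
    have h2 : ¬ V.valuation
        ((algebraMap ℤ (integralClosure ℤ L) m : integralClosure ℤ L) : L) < 1 := fun h =>
      hm ((hmemQ m).mp ((hvQ _).mpr h))
    have h3 := le_antisymm h1 (not_lt.mp h2)
    simpa using h3
  have hden := exists_den V hv1 ℓ hℓ hvℓ
  have hlies : V.LiesOverPrime ℓ := by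
    show ((ℓ : ℕ) : L) ∈ V.nonunits
    rw [V.mem_nonunits_iff]
    have h2 := (hvQ _).mp hℓQ
    simpa using h2
  refine ⟨V, hlies, ?_⟩
  intro σ hσ
  have hσQ : σ • Q = Q := Ideal.inertia_le_stabilizer Q hσ
  have hσ' : ∀ b : integralClosure ℤ L, σ • b - b ∈ Q := hσ
  have hσV : σ ∈ V.decompositionSubgroup ℚ := by
    rw [MulAction.mem_stabilizer_iff]
    apply SetLike.ext
    intro x
    rw [ValuationSubring.mem_pointwise_smul_iff_inv_smul_mem]
    constructor
    · intro hx
      have := stab_maps V Q hv1 hvQ hden σ hσQ _ hx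
      simpa using this
    · intro hx
      have hinv : σ⁻¹ • Q = Q := by
        conv_lhs => rw [← hσQ]
        rw [inv_smul_smul]
      exact stab_maps V Q hv1 hvQ hden σ⁻¹ hinv _ hx
  refine ⟨⟨σ, hσV⟩, ?_, rfl⟩
  show (⟨σ, hσV⟩ : V.decompositionSubgroup ℚ) ∈ V.inertiaSubgroup ℚ
  rw [ValuationSubring.inertiaSubgroup, MonoidHom.mem_ker]
  ext y
  obtain ⟨y, rfl⟩ := IsLocalRing.residue_surjective y
  show (⟨σ, hσV⟩ : V.decompositionSubgroup ℚ) • (IsLocalRing.residue V y) =
    IsLocalRing.residue V y
  rw [← IsLocalRing.ResidueField.residue_smul]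
  rw [← sub_eq_zero, ← map_sub, IsLocalRing.residue_eq_zero_iff,
    ← ValuationSubring.coe_mem_nonunits_iff, V.mem_nonunits_iff]
  show V.valuation (σ (y : L) - (y : L)) < 1
  obtain ⟨s, hs, a, ha⟩ := hden y y.2
  have hsQ : s ∉ Q := fun h => by
    have := (hvQ s).mp h
    rw [hs] at this
    exact lt_irrefl _ this
  have hσsQ : σ • s ∉ Q := by
    intro h
    rw [← hσQ] at h
    exact hsQ (Ideal.smul_mem_pointwise_smul_iff.mp h)
  have hσs1 : V.valuation (σ (s : L)) = 1 := by
    have h1 : V.valuation (((σ • s : integralClosure ℤ L)) : L) ≤ 1 := hv1 _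
    have h2 : ¬ V.valuation (((σ • s : integralClosure ℤ L)) : L) < 1 :=
      fun h => hσsQ ((hvQ _).mpr h)
    exact le_antisymm h1 (not_lt.mp h2)
  have hnum : s * (σ • a - a) - a * (σ • s - s) ∈ Q :=
    Q.sub_mem (Q.mul_mem_left _ (hσ' a)) (Q.mul_mem_left _ (hσ' s))
  have hnumv := (hvQ _).mp hnum
  have hkey : (((s * (σ • a - a) - a * (σ • s - s) : integralClosure ℤ L)) : L)
      = (σ (s : L) * (s : L)) * (σ (y : L) - (y : L)) := by
    have hσa : ((σ • a : integralClosure ℤ L) : L) = σ (s : L) * σ (y : L) := by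
      show σ (a : L) = _
      rw [ha, map_mul]
    have hσs : ((σ • s : integralClosure ℤ L) : L) = σ (s : L) := rfl
    push_cast
    rw [hσa, hσs, ha]
    ring
  rw [hkey, map_mul, map_mul, hσs1, hs, one_mul, one_mul] at hnumv
  exact hnumv

end Fermat.Agent.Lib.InertiaPlace
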