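import Mathlib
import Fermat.Prelude.Def_FLTPrelim_Ramification
import Fermat.Agent.Lib.InertiaPlace
import Fermat.Agent.Lib.InertiaLift

/-!
# Hermite–Minkowski in inertia language

Let `L` be a Galois extension of `ℚ` (for instance an algebraic closure) and `G = Gal(L/ℚ)`.
An open normal subgroup `H` of `G` containing the inertia groups of all valuation subrings of
`L` lying over prime numbers is the whole group (`eq_top_of_inertia_le`): its fixed field is a
number field, Galois over `ℚ` and unramified at every prime, hence equal to `ℚ` by the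
Hermite–Minkowski theorem. Consequently a homomorphism from `G` with open kernel which is
trivial on all these inertia groups is trivial (`hom_eq_one`).
-/

set_option autoImplicit false

namespace Fermat.Agent.Lib.Minkowski

open scoped Pointwise

/-- A Galois number field other than `ℚ` has a prime with nontrivial inertia group. -/
theorem exists_inertia_ne_one {K 𝒪 Γ : Type*} [Field K] [NumberField K]
    [CommRing 𝒪] [Algebra 𝒪 K] [IsIntegralClosure 𝒪 ℤ K]
    [Group Γ] [Finite Γ] [MulSemiringAction Γ 𝒪] [IsGaloisGroup Γ ℤ 𝒪]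
    (hK : Module.finrank ℚ K ≠ 1) :
    ∃ (P : Ideal 𝒪) (_ : P.IsMaximal) (γ : Γ), γ ∈ P.inertia Γ ∧ γ ≠ 1 := by
  have := (IsIntegralClosure.algebraMap_injective 𝒪 ℤ K).isDomain
  have := IsIntegralClosure.isDedekindDomain ℤ ℚ K 𝒪
  have := IsIntegralClosure.isFractionRing_of_finite_extension ℤ ℚ K 𝒪
  have := IsIntegralClosure.finite ℤ ℚ K 𝒪
  have := CharZero.of_module (R := 𝒪) K
  obtain ⟨P, hPmax, hP⟩ := NumberField.exists_not_isUnramifiedAt_int (K := K) (𝒪 := 𝒪) hK
  refine ⟨P, hPmax, ?_⟩
  have hPprime : P.IsPrime := hPmax.isPrime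
  by_contra hcon
  push Not at hcon
  have hcard : Nat.card (P.inertia Γ) = 1 := by
    rw [Nat.card_eq_one_iff_unique]
    refine ⟨⟨fun a b => ?_⟩, ⟨1⟩⟩
    apply Subtype.ext
    rw [hcon a a.2, hcon b b.2]
  have h1 := Ideal.card_inertia_eq_ramificationIdxIn (G := Γ) (P.under ℤ) P
  rw [hcard, Ideal.ramificationIdxIn_eq_ramificationIdx (P.under ℤ) P Γ] at h1
  exact hP (Ideal.ramificationIdx_eq_one_iff.mp h1.symm)

section

variable {L : Type*} [Field L] [Algebra ℚ L]

variable (H : Subgroup (L ≃ₐ[ℚ] L))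

/-- The inclusion of the ring of `H`-invariant algebraic integers into the fixed field of `H`. -/
def toFixedField :
    FixedPoints.subalgebra ℤ (integralClosure ℤ L) H →+* IntermediateField.fixedField H where
  toFun x := ⟨((x : integralClosure ℤ L) : L), by
    rw [IntermediateField.mem_fixedField_iff]
    intro f hf
    exact congrArg Subtype.val (x.2 ⟨f, hf⟩)⟩
  map_one' := rfl
  map_mul' _ _ := rfl
  map_zero' := rfl
  map_add' _ _ := rfl

theorem toFixedField_coe (x : FixedPoints.subalgebra ℤ (integralClosure ℤ L) H) :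
    ((toFixedField H x : IntermediateField.fixedField H) : L) = ((x : integralClosure ℤ L) : L) :=
  rfl

theorem toFixedField_injective : Function.Injective (toFixedField H) := by
  intro x y hxy
  apply Subtype.ext
  apply Subtype.ext
  have := congrArg Subtype.val hxy
  exact this

variable [IsGalois ℚ L]

/-- The action of the Galois group on the algebraic integers is continuous for the discrete
topology. -/
theorem continuousSMul_integers [TopologicalSpace (integralClosure ℤ L)]
    [DiscreteTopology (integralClosure ℤ L)] :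
    ContinuousSMul (L ≃ₐ[ℚ] L) (integralClosure ℤ L) := by
  rw [continuousSMul_iff_stabilizer_isOpen]
  intro x
  have h := stabilizer_isOpen_of_isIntegral (K := ℚ) (L := L) (x : L)
  convert h using 1
  ext g
  simp only [SetLike.mem_coe, MulAction.mem_stabilizer_iff]
  constructor
  · intro hg
    exact congrArg Subtype.val hg
  · intro hg
    exact Subtype.ext hg

/-- The algebraic integers fixed by the Galois group are the integers. -/
theorem isInvariant_integers :
    Algebra.IsInvariant ℤ (integralClosure ℤ L) (L ≃ₐ[ℚ] L) := by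
  refine ⟨fun b hb => ?_⟩
  have hfix : (b : L) ∈ (⊥ : IntermediateField ℚ L) := by
    rw [InfiniteGalois.mem_bot_iff_fixed]
    intro g
    exact congrArg Subtype.val (hb g)
  rw [IntermediateField.mem_bot] at hfix
  obtain ⟨q, hq⟩ := hfix
  have hint : IsIntegral ℤ (algebraMap ℚ L q) := hq ▸ b.2
  have hintq : IsIntegral ℤ q := (isIntegral_algebraMap_iff (algebraMap ℚ L).injective).mp hint
  obtain ⟨m, hm⟩ := IsIntegrallyClosed.isIntegral_iff.mp hintq
  refine ⟨m, Subtype.ext ?_⟩
  rw [← hq, ← hm]
  simp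


theorem fixingSubgroup_fixedField_of_isOpen (hopen : IsOpen (H : Set (L ≃ₐ[ℚ] L))) :
    (IntermediateField.fixedField H).fixingSubgroup = H :=
  InfiniteGalois.fixingSubgroup_fixedField
    (⟨H, Subgroup.isClosed_of_isOpen H hopen⟩ : ClosedSubgroup (L ≃ₐ[ℚ] L))

theorem finiteDimensional_fixedField (hopen : IsOpen (H : Set (L ≃ₐ[ℚ] L))) :
    FiniteDimensional ℚ (IntermediateField.fixedField H) := by
  rw [← InfiniteGalois.isOpen_iff_finite, fixingSubgroup_fixedField_of_isOpen H hopen]
  exact hopen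

theorem numberField_fixedField (hopen : IsOpen (H : Set (L ≃ₐ[ℚ] L))) :
    NumberField (IntermediateField.fixedField H) := by
  have h1 : CharZero (IntermediateField.fixedField H) := algebraRat.charZero _
  have h2 := finiteDimensional_fixedField H hopen
  refine @NumberField.mk _ _ h1 ?_
  convert h2
  exact Subsingleton.elim _ _

/-- The quotient by an open normal subgroup acts faithfully on the invariant integers. -/
theorem faithful_quotient [H.Normal] (hopen : IsOpen (H : Set (L ≃ₐ[ℚ] L))) :
    FaithfulSMul ((L ≃ₐ[ℚ] L) ⧸ H) (FixedPoints.subalgebra ℤ (integralClosure ℤ L) H) := by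
  refine ⟨fun {γ₁ γ₂} h => ?_⟩
  obtain ⟨g₁, rfl⟩ := QuotientGroup.mk_surjective γ₁
  obtain ⟨g₂, rfl⟩ := QuotientGroup.mk_surjective γ₂
  rw [QuotientGroup.eq, ← fixingSubgroup_fixedField_of_isOpen H hopen,
    IntermediateField.mem_fixingSubgroup_iff]
  intro y hy
  have hyalg : IsAlgebraic ℤ y :=
    (IsFractionRing.isAlgebraic_iff ℤ ℚ L).mpr (Algebra.IsAlgebraic.isAlgebraic y)
  obtain ⟨n, hn0, hn⟩ := hyalg.exists_integral_multiple
  have hfix : ∀ f ∈ H, f (n • y) = n • y := by
    intro f hf
    rw [IntermediateField.mem_fixedField_iff] at hy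
    rw [map_zsmul, hy f hf]
  let x : FixedPoints.subalgebra ℤ (integralClosure ℤ L) H :=
    ⟨⟨n • y, hn⟩, fun h => Subtype.ext (hfix h.1 h.2)⟩
  have hx := congrArg (fun z : FixedPoints.subalgebra ℤ (integralClosure ℤ L) H =>
    ((z : integralClosure ℤ L) : L)) (h x)
  have hx' : g₁ (n • y) = g₂ (n • y) := hx
  rw [map_zsmul, map_zsmul] at hx'
  have hchar : CharZero L := algebraRat.charZero L
  have hy12 : g₁ y = g₂ y := by
    have hn0' : (n : L) ≠ 0 := Int.cast_ne_zero.mpr hn0
    rw [zsmul_eq_mul, zsmul_eq_mul] at hx'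
    exact mul_left_cancel₀ hn0' hx'
  show (g₁⁻¹ * g₂) y = y
  rw [AlgEquiv.mul_apply, ← hy12]
  exact g₁.symm_apply_apply y

theorem exists_inertia_quotient_ne_one [H.Normal] (hopen : IsOpen (H : Set (L ≃ₐ[ℚ] L)))
    (hne : Module.finrank ℚ (IntermediateField.fixedField H) ≠ 1) :
    ∃ (P : Ideal (FixedPoints.subalgebra ℤ (integralClosure ℤ L) H)) (_ : P.IsMaximal)
      (γ : (L ≃ₐ[ℚ] L) ⧸ H), γ ∈ P.inertia ((L ≃ₐ[ℚ] L) ⧸ H) ∧ γ ≠ 1 := by
  have hinv : Algebra.IsInvariant ℤ (integralClosure ℤ L) (L ≃ₐ[ℚ] L) := isInvariant_integers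
  refine @exists_inertia_ne_one (IntermediateField.fixedField H)
    (FixedPoints.subalgebra ℤ (integralClosure ℤ L) H) ((L ≃ₐ[ℚ] L) ⧸ H) _ ?_ _
    (toFixedField H).toAlgebra ?_ _ ?_ _ ?_ ?_
  · exact numberField_fixedField H hopen
  · let _ : Algebra (FixedPoints.subalgebra ℤ (integralClosure ℤ L) H)
      (IntermediateField.fixedField H) := (toFixedField H).toAlgebra
    refine ⟨toFixedField_injective H, ?_⟩
    intro x
    constructor
    · intro hx
      have hxL : IsIntegral ℤ (x : L) :=
        (isIntegral_algebraMap_iff (algebraMap (IntermediateField.fixedField H) L).injective).mpr hx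
      refine ⟨⟨⟨(x : L), hxL⟩, ?_⟩, ?_⟩
      · intro h
        apply Subtype.ext
        have := x.2
        rw [IntermediateField.mem_fixedField_iff] at this
        exact this h.1 h.2
      · apply Subtype.ext
        rfl
    · rintro ⟨y, rfl⟩
      have hy : IsIntegral ℤ ((y : integralClosure ℤ L) : L) := (y : integralClosure ℤ L).2
      exact (isIntegral_algebraMap_iff
        (algebraMap (IntermediateField.fixedField H) L).injective).mp hy
  · exact H.quotient_finite_of_isOpen hopen
  · refine ⟨faithful_quotient H hopen, inferInstance, ⟨fun x hx => ?_⟩⟩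
    obtain ⟨y, hy⟩ := hinv.isInvariant (x : integralClosure ℤ L)
      (fun g => congrArg Subtype.val (hx (g : (L ≃ₐ[ℚ] L) ⧸ H)))
    exact ⟨y, Subtype.ext hy⟩
  · convert hne
    exact Subsingleton.elim _ _

omit [IsGalois ℚ L] in
/-- A maximal ideal of the ring of algebraic integers contains a prime number. -/
theorem exists_prime_mem (Q : Ideal (integralClosure ℤ L)) (hQmax : Q.IsMaximal) :
    ∃ ℓ : ℕ, ℓ.Prime ∧ algebraMap ℤ (integralClosure ℤ L) (ℓ : ℤ) ∈ Q := by
  have hchar : CharZero L := algebraRat.charZero L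
  have hcharB : CharZero (integralClosure ℤ L) :=
    charZero_of_injective_algebraMap (R := ℤ)
      (FaithfulSMul.algebraMap_injective ℤ (integralClosure ℤ L))
  have hmax : (Q.under ℤ).IsMaximal := Ideal.isMaximal_comap_of_isIntegral_of_isMaximal Q
  obtain ⟨p, hp : Q.under ℤ = Ideal.span {p}⟩ := IsPrincipalIdealRing.principal (Q.under ℤ)
  have hp0 : p ≠ 0 := by
    rintro rfl
    have hbot : Q.under ℤ = ⊥ := by rw [hp]; simp
    exact Ring.ne_bot_of_isMaximal_of_not_isField hmax Int.not_isField hbot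
  have hprime : Prime p := by
    rw [← Ideal.span_singleton_prime hp0, ← hp]
    exact hmax.isPrime
  refine ⟨p.natAbs, Int.prime_iff_natAbs_prime.mp hprime, ?_⟩
  have hmem : (p.natAbs : ℤ) ∈ Q.under ℤ := by
    rw [hp, Ideal.mem_span_singleton]
    exact Int.dvd_natAbs_self
  exact hmem

/-- **Hermite–Minkowski in inertia language.** An open normal subgroup of the Galois group of
a Galois extension `L` of `ℚ` which contains the inertia groups of all valuation subrings of
`L` lying over a prime number is the whole group. -/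
theorem eq_top_of_inertia_le [H.Normal] (hopen : IsOpen (H : Set (L ≃ₐ[ℚ] L)))
    (hI : ∀ ℓ : ℕ, ℓ.Prime → ∀ A : ValuationSubring L, A.LiesOverPrime ℓ →
      A.inertiaSubgroupIn ℚ ≤ H) : H = ⊤ := by
  by_contra hne
  have hfin : Module.finrank ℚ (IntermediateField.fixedField H) ≠ 1 := by
    intro h1
    have hbot : IntermediateField.fixedField H = ⊥ := IntermediateField.finrank_eq_one_iff.mp h1
    apply hne
    rw [← fixingSubgroup_fixedField_of_isOpen H hopen, hbot, IntermediateField.fixingSubgroup_bot]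
  obtain ⟨P', hP'max, γ, hγ, hγ1⟩ := exists_inertia_quotient_ne_one H hopen hfin
  have hint : Algebra.IsIntegral (FixedPoints.subalgebra ℤ (integralClosure ℤ L) H)
      (integralClosure ℤ L) := Algebra.IsIntegral.tower_top (R := ℤ)
  have hker : RingHom.ker (algebraMap (FixedPoints.subalgebra ℤ (integralClosure ℤ L) H)
      (integralClosure ℤ L)) ≤ P' := by
    intro x hx
    rw [RingHom.mem_ker] at hx
    have hx0 : x = 0 := Subtype.ext hx
    rw [hx0]
    exact P'.zero_mem
  obtain ⟨Q, hQmax, hQP⟩ := Ideal.exists_ideal_over_maximal_of_isIntegral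
    (S := integralClosure ℤ L) P' hker
  have hQprime : Q.IsPrime := hQmax.isPrime
  let _ : TopologicalSpace (integralClosure ℤ L) := ⊥
  have : DiscreteTopology (integralClosure ℤ L) := ⟨rfl⟩
  have : ContinuousSMul (L ≃ₐ[ℚ] L) (integralClosure ℤ L) := continuousSMul_integers
  have hγ' : γ ∈ (Q.under (FixedPoints.subalgebra ℤ (integralClosure ℤ L) H)).inertia
      ((L ≃ₐ[ℚ] L) ⧸ H) := by
    rw [show Q.under (FixedPoints.subalgebra ℤ (integralClosure ℤ L) H) = P' from hQP]
    exact hγ
  obtain ⟨σ, hσ, hσγ⟩ := InertiaLift.exists_mem_inertia_mk_eq (A := ℤ) H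
    (Subgroup.isClosed_of_isOpen H hopen) Q γ hγ'
  obtain ⟨ℓ, hℓ, hℓQ⟩ := exists_prime_mem Q hQmax
  obtain ⟨V, hV, hVQ⟩ := InertiaPlace.exists_place Q hQmax ℓ hℓ hℓQ
  have hσH : σ ∈ H := hI ℓ hℓ V hV (hVQ hσ)
  apply hγ1
  rw [← hσγ]
  exact (QuotientGroup.eq_one_iff σ).mpr hσH

/-- A homomorphism from the Galois group of a Galois extension `L` of `ℚ` with open kernel
which is trivial on the inertia groups of all valuation subrings of `L` lying over prime
numbers is trivial. -/
theorem hom_eq_one {G' : Type*} [Group G'] (χ : (L ≃ₐ[ℚ] L) →* G')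
    (hopen : IsOpen (χ.ker : Set (L ≃ₐ[ℚ] L)))
    (hunr : ∀ ℓ : ℕ, ℓ.Prime → ∀ A : ValuationSubring L, A.LiesOverPrime ℓ →
      ∀ σ ∈ A.inertiaSubgroupIn ℚ, χ σ = 1) (σ : L ≃ₐ[ℚ] L) : χ σ = 1 := by
  have htop : χ.ker = ⊤ := eq_top_of_inertia_le χ.ker hopen
    (fun ℓ hℓ A hA τ hτ => MonoidHom.mem_ker.mpr (hunr ℓ hℓ A hA τ hτ))
  have hσ : σ ∈ χ.ker := by rw [htop]; trivial
  exact MonoidHom.mem_ker.mp hσ

end

/-- An algebraic closure of `ℚ` (with any algebra structure) is a Galois extension of `ℚ`. -/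
theorem isGalois_of_isAlgClosed {L : Type*} [Field L] [Algebra ℚ L] [IsAlgClosed L]
    [Algebra.IsAlgebraic ℚ L] : IsGalois ℚ L := by
  have h1 : IsAlgClosure ℚ L := ⟨inferInstance, inferInstance⟩
  have h2 : Normal ℚ L := IsAlgClosure.normal ℚ L
  exact ⟨⟩

/-- `AlgebraicClosure ℚ` is a Galois extension of `ℚ`, for any algebra structure on it. -/
theorem isGalois_algebraicClosure (inst : Algebra ℚ (AlgebraicClosure ℚ)) :
    @IsGalois ℚ _ (AlgebraicClosure ℚ) _ inst := by
  obtain rfl : AlgebraicClosure.instAlgebra ℚ = inst := Subsingleton.elim _ _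
  have h0 : Algebra.IsAlgebraic ℚ (AlgebraicClosure ℚ) := AlgebraicClosure.isAlgebraic ℚ
  exact isGalois_of_isAlgClosed

end Fermat.Agent.Lib.Minkowski
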